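import Fermat.Prelude.Def_AlgebraicCurve_DivisorClassGroup

/-!
# Bounded homomorphisms on divisors

A homomorphism from divisors to a torsion-free group which kills principal divisors and is
bounded on places kills every divisor of degree zero (every class is `E - g • P₀`).
-/

set_option autoImplicit false

noncomputable section

open AlgebraicCurve

namespace Fermat.Agent.Congruence

variable (K F : Type*) [Field K] [Field F] [Algebra K F]

/-- Weak Riemann inequality: divisors of large degree are equivalent to effective ones. -/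
def WeakRiemann : Prop :=
  ∃ g : ℕ, ∀ D : Divisor K F, (g : ℤ) ≤ Divisor.degree D →
    ∃ f : F, f ≠ 0 ∧ ∀ P : Place K F, 0 ≤ D P + P.ord f

variable {K F}

theorem degree_eq_sum_of_deg_one (hdeg : ∀ P : Place K F, P.deg = 1) (D : Divisor K F) :
    Divisor.degree D = D.sum fun _ n => n := by
  induction D using Finsupp.induction with
  | zero => simp
  | single_add P n D hP hn ih =>
    rw [map_add, Divisor.degree_single, hdeg, Finsupp.sum_add_index' (fun _ => rfl)
      (fun _ _ _ => rfl), Finsupp.sum_single_index rfl, ih]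
    simp

theorem apply_eq_zero_of_bounded [HasPrincipalDivisors K F]
    (hdeg : ∀ P : Place K F, P.deg = 1) (hR : WeakRiemann K F)
    (φ : Divisor K F →+ ℤ) (hprin : ∀ D ∈ Divisor.principal (K := K) (F := F), φ D = 0)
    (C : ℤ) (hbd : ∀ P : Place K F, |φ (Finsupp.single P 1)| ≤ C)
    {D : Divisor K F} (hD : Divisor.degree D = 0) : φ D = 0 := by
  classical
  rcases eq_or_ne D 0 with rfl | hne
  · exact map_zero φ
  obtain ⟨P₀, -⟩ := Finsupp.ne_iff.mp hne
  have hC : 0 ≤ C := le_trans (abs_nonneg _) (hbd P₀)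
  have hE : ∀ E : Divisor K F, (∀ P, 0 ≤ E P) → |φ E| ≤ C * Divisor.degree E := by
    intro E hpos
    rw [degree_eq_sum_of_deg_one hdeg, Finsupp.sum, Finset.mul_sum]
    conv_lhs => rw [← Finsupp.sum_single E, map_finsuppSum]
    refine le_trans (Finset.abs_sum_le_sum_abs _ _) (Finset.sum_le_sum fun P _ => ?_)
    beta_reduce
    rw [show Finsupp.single P (E P) = E P • Finsupp.single P (1 : ℤ) by
        rw [Finsupp.smul_single, smul_eq_mul, mul_one], map_zsmul, smul_eq_mul, abs_mul,
      abs_of_nonneg (hpos P), mul_comm C]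
    exact mul_le_mul_of_nonneg_left (hbd P) (hpos P)
  obtain ⟨g, hg⟩ := hR
  have hbound : ∀ m : ℤ, |m * φ D| ≤ 2 * C * g := by
    intro m
    set D' : Divisor K F := m • D + Finsupp.single P₀ (g : ℤ) with hD'
    have hdegD' : Divisor.degree D' = g := by
      rw [hD', map_add, map_zsmul, hD, Divisor.degree_single, hdeg]; simp
    obtain ⟨f, hf, hpos⟩ := hg D' (le_of_eq hdegD'.symm)
    obtain ⟨G, hG, hG0⟩ := HasPrincipalDivisors.exists_divisor (K := K) f hf
    have hφG : φ G = 0 := hprin G ⟨f, hf, hG⟩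
    have h1 := hE (D' + G) (fun P => by rw [Finsupp.add_apply, hG]; exact hpos P)
    rw [map_add φ, hφG, add_zero, map_add Divisor.degree, hG0, add_zero, hdegD'] at h1
    have h2 : |φ (Finsupp.single P₀ (g : ℤ))| ≤ C * g := by
      rw [show Finsupp.single P₀ (g : ℤ) = (g : ℤ) • Finsupp.single P₀ (1 : ℤ) by
          rw [Finsupp.smul_single, smul_eq_mul, mul_one], map_zsmul, smul_eq_mul, abs_mul,
        Nat.abs_cast, mul_comm C]
      exact mul_le_mul_of_nonneg_left (hbd P₀) (Int.natCast_nonneg g)
    rw [hD', map_add, map_zsmul, smul_eq_mul] at h1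
    have h4 := abs_sub_abs_le_abs_sub (m * φ D) (-(φ (Finsupp.single P₀ (g : ℤ))))
    rw [sub_neg_eq_add, abs_neg] at h4
    linarith
  by_contra hne0
  have h := hbound (2 * C * g + 1)
  rw [abs_mul] at h
  have h1 : 1 ≤ |φ D| := Int.one_le_abs hne0
  have h0 : 0 ≤ 2 * C * (g : ℤ) := by positivity
  rw [abs_of_nonneg (by linarith : (0 : ℤ) ≤ 2 * C * g + 1)] at h
  nlinarith

/-- The coefficients of a pushed-forward effective divisor are bounded by its degree. -/
theorem abs_mapDomain_apply_le {Q : Type*} (r : Place K F → Q) (D : Divisor K F)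
    (hpos : ∀ P, 0 ≤ D P) (hdeg : ∀ P : Place K F, P.deg = 1) (x : Q) :
    |Finsupp.mapDomain r D x| ≤ Divisor.degree D := by
  classical
  rw [degree_eq_sum_of_deg_one hdeg, Finsupp.mapDomain, Finsupp.sum_apply, Finsupp.sum,
    Finsupp.sum]
  refine le_trans (Finset.abs_sum_le_sum_abs _ _) (Finset.sum_le_sum fun P _ => ?_)
  rw [Finsupp.single_apply]
  split_ifs
  · rw [abs_of_nonneg (hpos P)]
  · rw [abs_zero]; exact hpos P

end Fermat.Agent.Congruence
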