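import Fermat.Agent.FunctionFieldRR.ReducedBasis
import Fermat.Agent.X0Analytic.Degree
import Fermat.Agent.Congruence.Bounded
import Mathlib.FieldTheory.IsAlgClosed.Basic

/-!
# Function-field facts for `X₀(N)`

The weak Riemann inequality for function fields, and the function field of `X₀(N)` over `ℚ̄`.
-/

set_option autoImplicit false

noncomputable section

open AlgebraicCurve IntermediateField Polynomial

namespace Fermat.Agent.Congruence

open Fermat.Agent.FunctionFieldRR

/-- The weak Riemann inequality for a function field. -/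
theorem weakRiemann {K F : Type*} [Field K] [Field F] [Algebra K F] [IsAlgClosed K]
    [IsFunctionField K F] : WeakRiemann K F := by
  obtain ⟨x, hx, hfin⟩ := IsFunctionField.exists_transcendental (K := K) (F := F)
  have := hfin
  set B : Divisor K F := polarDivisor x with hB
  obtain ⟨u, m₁, hu⟩ := exists_basis_mem hx (0 : Divisor K F)
  refine ⟨Module.finrank K⟮x⟯ F * m₁, fun D hD => ?_⟩
  obtain ⟨q, m, hq, -, hmem⟩ := exists_clear_denominators hx (1 : F) (-D) none (by simp)
  rw [mul_one] at hmem
  have hq0 : aeval x q ≠ 0 := fun h => hq (transcendental_iff.1 hx q h)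
  set D' : Divisor K F := D - divisorOf (aeval x q) with hD'def
  set E : Divisor K F := ((m : ℤ) + (m₁ : ℤ)) • B with hEdef
  have hle : D' ≤ E := Finsupp.le_def.2 fun w => by
    have h1 : -(-D w + (m : ℤ) * B w) ≤ w.ord (aeval x q) := by
      rcases mem_riemannRochSpace.1 hmem w with h | h
      · exact absurd h hq0
      · simp only [Finsupp.add_apply, Finsupp.smul_apply, Finsupp.neg_apply, smul_eq_mul] at h
        linarith
    have h2 : 0 ≤ (m₁ : ℤ) * B w :=
      mul_nonneg (Int.natCast_nonneg _) (Finsupp.le_def.1 (polarDivisor_nonneg x) w)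
    rw [hD'def, hEdef, Finsupp.sub_apply, divisorOf_apply, Finsupp.smul_apply, smul_eq_mul,
      add_mul]
    linarith
  have hE : (m + 1) * Module.finrank K⟮x⟯ F ≤ Module.finrank K (riemannRochSpace E) := by
    have h := finrank_mul_le hx u (polarDivisor_nonneg (K := K) x)
      (self_mem_riemannRochSpace_polarDivisor x) (C := (m₁ : ℤ) • B)
      (fun i => by simpa using hu i) m
    rw [Fintype.card_fin, ← add_smul] at h
    exact h
  have hdegE : Divisor.degree E =
      ((m : ℤ) + (m₁ : ℤ)) * (Module.finrank K⟮x⟯ F : ℤ) := by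
    rw [hEdef, map_zsmul, smul_eq_mul, hB, degree_polarDivisor hx]
  have hdegD' : Divisor.degree D' = Divisor.degree D := by
    rw [hD'def, map_sub, degree_divisorOf, sub_zero]
  have hrank := (finrank_le_of_le hle).2
  rw [hdegE, hdegD'] at hrank
  have hn : 0 < Module.finrank K⟮x⟯ F := Module.finrank_pos
  have hne : 0 < Module.finrank K (riemannRochSpace D') := by
    have hE' : (((m + 1) * Module.finrank K⟮x⟯ F : ℕ) : ℤ) ≤
        Module.finrank K (riemannRochSpace E) := Int.ofNat_le.2 hE
    push_cast at hE' hD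
    have hn' : (0 : ℤ) < Module.finrank K⟮x⟯ F := Int.natCast_pos.2 hn
    have : (0 : ℤ) < Module.finrank K (riemannRochSpace D') := by linarith
    exact_mod_cast this
  obtain ⟨⟨f, hf⟩, hf0⟩ := Module.finrank_pos_iff_exists_ne_zero.1 hne
  have hfne : f ≠ 0 := fun h => hf0 (Subtype.ext h)
  refine ⟨f / aeval x q, div_ne_zero hfne hq0, fun w => ?_⟩
  rw [ord_div w hfne hq0]
  rcases mem_riemannRochSpace.1 hf w with h | h
  · exact absurd h hfne
  · rw [hD'def, Finsupp.sub_apply, divisorOf_apply] at h
    linarith

open Fermat.Agent.X0Analytic in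
/-- `ℚ̄(X₀(N))` is a function field in one variable over `ℚ̄`. -/
theorem isFunctionField_modularFunctionFieldBar (N : ℕ) [NeZero N] :
    IsFunctionField (AlgebraicClosure ℚ) (ModularCurve.modularFunctionFieldBar N) := by
  have : Algebra.IsAlgebraic ℚ (AlgebraicClosure ℚ) := AlgebraicClosure.isAlgebraic ℚ
  let φ : AlgebraicClosure ℚ →+* ℂ :=
    (IsAlgClosed.lift : AlgebraicClosure ℚ →ₐ[ℚ] ℂ).toRingHom
  have := finiteDimensional_jField (N := N) φ
  exact IsFunctionField.of_finiteDimensional (jEl (AlgebraicClosure ℚ) N) (transcendental_jEl φ)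

end Fermat.Agent.Congruence
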