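import Fermat.Agent.X0Analytic.Embedding
import Mathlib.Algebra.MvPolynomial.Eval

/-!
# The Atkin–Lehner substitution

The Atkin–Lehner substitution on modular functions of level `N * ℓ`, `ℓ ∤ N`, in series form.
-/

set_option autoImplicit false

noncomputable section

open UpperHalfPlane CongruenceSubgroup
open scoped MatrixGroups

namespace Fermat.Agent.Congruence

open Fermat.Agent.X0Analytic

theorem scaledJ_scaleGL (d ℓ : ℕ) [NeZero d] [NeZero ℓ] (τ : ℍ) :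
    scaledJ d (scaleGL ℓ • τ) = scaledJ (d * ℓ) τ := by
  rw [scaledJ, scaledJ]
  congr 1
  apply UpperHalfPlane.ext
  simp only [coe_scaleGL_smul, Nat.cast_mul]
  ring

theorem exists_atkinLehner (N ℓ : ℕ) [NeZero N] [NeZero ℓ] (hcop : ℓ.Coprime N) :
    ∃ W : ℍ → ℍ, ∀ (d : ℕ) [NeZero d], d ∣ N → ∀ τ : ℍ,
      scaledJ d (W τ) = scaledJ (d * ℓ) τ ∧ scaledJ (d * ℓ) (W τ) = scaledJ d τ := by
  obtain ⟨u, v, huv⟩ : IsCoprime (ℓ : ℤ) (N : ℤ) := Nat.isCoprime_iff_coprime.mpr hcop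
  let γ : SL(2, ℤ) := ⟨!![1, -v; (N : ℤ), (ℓ : ℤ) * u], by
    rw [Matrix.det_fin_two_of]; linear_combination huv⟩
  let γ' : SL(2, ℤ) := ⟨!![(ℓ : ℤ), -v; (N : ℤ), u], by
    rw [Matrix.det_fin_two_of]; linear_combination huv⟩
  have hγ : γ ∈ Gamma0 N := by rw [Gamma0_mem]; simp [γ]
  have hγ' : γ' ∈ Gamma0 N := by rw [Gamma0_mem]; simp [γ']
  refine ⟨fun τ => γ • (scaleGL ℓ • τ), fun d _ hd τ => ⟨?_, ?_⟩⟩
  · rw [scaledJ_smul_of_mem hd hγ, scaledJ_scaleGL]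
  · rw [← scaledJ_scaleGL]
    have key : scaleGL ℓ • (γ • (scaleGL ℓ • τ)) = γ' • τ := by
      apply UpperHalfPlane.ext
      rw [coe_scaleGL_smul, UpperHalfPlane.coe_specialLinearGroup_apply,
        UpperHalfPlane.coe_specialLinearGroup_apply]
      simp only [coe_scaleGL_smul, γ, γ', Matrix.SpecialLinearGroup.coe_mk,
        algebraMap_int_eq, Matrix.of_apply, Matrix.cons_val_zero, Matrix.cons_val_one,
        Matrix.cons_val', Matrix.empty_val', Matrix.cons_val_fin_one, eq_intCast, Int.cast_one,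
        Int.cast_neg, Int.cast_natCast, Int.cast_mul, Complex.ofReal_natCast, Complex.ofReal_neg,
        Complex.ofReal_intCast, Complex.ofReal_one, Complex.ofReal_mul]
      have hl : (ℓ : ℂ) ≠ 0 := Nat.cast_ne_zero.mpr (NeZero.ne ℓ)
      rw [← mul_div_assoc]
      conv_lhs => rw [show (N : ℂ) * ((ℓ : ℂ) * (τ : ℂ)) + (ℓ : ℂ) * (u : ℂ) =
        (ℓ : ℂ) * ((N : ℂ) * (τ : ℂ) + (u : ℂ)) by ring]
      rw [mul_div_mul_left _ _ hl]
      ring
    rw [key, scaledJ_smul_of_mem hd hγ']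

section Algebra

variable {L : Type*} [Field L] [Algebra ℚ L] (φ : L →+* ℂ) (N ℓ : ℕ) [NeZero N] [NeZero ℓ]

/-- Indices of generators: `(d, true)` stands for `d * ℓ` and `(d, false)` for `d`. -/
abbrev GenIdx := {d : ℕ // d ∣ N} × Bool

instance instNeZeroDvd (d : {d : ℕ // d ∣ N}) : NeZero (d : ℕ) :=
  ⟨fun h => NeZero.ne N (Nat.eq_zero_of_zero_dvd (h ▸ d.2))⟩

variable (L) in
/-- The generator attached to an index. -/
def genAt (i : GenIdx N) : ↥(algGen L (N * ℓ)) :=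
  match i with
  | (d, false) => ⟨jL L d, Algebra.subset_adjoin ⟨d, inferInstance, d.2.mul_right ℓ, rfl⟩⟩
  | (d, true) => ⟨jL L (d * ℓ), Algebra.subset_adjoin ⟨d * ℓ, inferInstance,
      Nat.mul_dvd_mul_right d.2 ℓ, rfl⟩⟩

variable (L) in
/-- The generator attached to the swapped index. -/
def genSwap (i : GenIdx N) : ↥(algGen L (N * ℓ)) := genAt L N ℓ (i.1, !i.2)

variable {N ℓ}

theorem genAt_surjective (hℓ : ℓ.Prime) :
    Function.Surjective (MvPolynomial.aeval (R := L) (genAt L N ℓ)) := by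
  rintro ⟨x, hx⟩
  have : x ∈ ((MvPolynomial.aeval (R := L) (genAt L N ℓ)).range).map (algGen L (N * ℓ)).val := by
    refine Algebra.adjoin_le ?_ hx
    rintro y ⟨e, he0, he, rfl⟩
    obtain ⟨a, b, ha, hb, hab⟩ := exists_dvd_and_dvd_of_dvd_mul he
    rcases (Nat.dvd_prime hℓ).mp hb with rfl | rfl
    · rw [mul_one] at hab
      subst hab
      exact ⟨genAt L N ℓ (⟨e, ha⟩, false), ⟨MvPolynomial.X (⟨e, ha⟩, false),
        MvPolynomial.aeval_X _ _⟩, rfl⟩
    · subst hab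
      exact ⟨genAt L N b (⟨a, ha⟩, true), ⟨MvPolynomial.X (⟨a, ha⟩, true),
        MvPolynomial.aeval_X _ _⟩, rfl⟩
  obtain ⟨z, ⟨p, rfl⟩, hz⟩ := this
  exact ⟨p, Subtype.ext hz⟩

theorem toModFun_aeval (p : MvPolynomial (GenIdx N) L) (f : GenIdx N → ↥(algGen L (N * ℓ))) (τ : ℍ) :
    (toModFun φ (MvPolynomial.aeval f p) : ℍ → ℂ) τ =
      MvPolynomial.eval₂ φ (fun i => (toModFun φ (f i) : ℍ → ℂ) τ) p := by
  induction p using MvPolynomial.induction_on with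
  | C c =>
    rw [MvPolynomial.aeval_C, toModFun_algebraMap, MvPolynomial.eval₂_C]
    rfl
  | add p q hp hq =>
    rw [map_add, map_add, MvPolynomial.eval₂_add, ← hp, ← hq]
    rfl
  | mul_X p i hp =>
    rw [map_mul, map_mul, MvPolynomial.aeval_X, MvPolynomial.eval₂_mul, MvPolynomial.eval₂_X, ← hp]
    rfl

theorem aeval_genSwap_eq_zero (hℓ : ℓ.Prime) (hℓN : ¬ ℓ ∣ N) {p : MvPolynomial (GenIdx N) L}
    (φ : L →+* ℂ) (hp : MvPolynomial.aeval (genAt L N ℓ) p = 0) :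
    MvPolynomial.aeval (genSwap L N ℓ) p = 0 := by
  obtain ⟨W, hW⟩ := exists_atkinLehner N ℓ (hℓ.coprime_iff_not_dvd.mpr hℓN)
  apply toModFun_injective φ
  rw [map_zero]
  refine Subtype.ext (funext fun τ => ?_)
  have hgen : ∀ i : GenIdx N,
      (toModFun φ (genSwap L N ℓ i) : ℍ → ℂ) τ = (toModFun φ (genAt L N ℓ i) : ℍ → ℂ) (W τ) := by
    rintro ⟨⟨d, hd⟩, b⟩
    have : NeZero d := ⟨fun h => NeZero.ne N (Nat.eq_zero_of_zero_dvd (h ▸ hd))⟩
    cases b
    · show (toModFun φ (genAt L N ℓ (⟨d, hd⟩, true)) : ℍ → ℂ) τ = _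
      simp only [genAt]
      rw [toModFun_jL φ (Nat.mul_dvd_mul_right hd ℓ), toModFun_jL φ (hd.mul_right ℓ)]
      exact ((hW d hd τ).1).symm
    · show (toModFun φ (genAt L N ℓ (⟨d, hd⟩, false)) : ℍ → ℂ) τ = _
      simp only [genAt]
      rw [toModFun_jL φ (hd.mul_right ℓ), toModFun_jL φ (Nat.mul_dvd_mul_right hd ℓ)]
      exact ((hW d hd τ).2).symm
  rw [toModFun_aeval]
  simp only [hgen]
  rw [← toModFun_aeval, hp, map_zero]
  rfl

/-- The swap as an endomorphism of the generated algebra. -/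
def swapAlg (φ : L →+* ℂ) (hℓ : ℓ.Prime) (hℓN : ¬ ℓ ∣ N) :
    ↥(algGen L (N * ℓ)) →+* ↥(algGen L (N * ℓ)) :=
  RingHom.liftOfSurjective (MvPolynomial.aeval (R := L) (genAt L N ℓ)).toRingHom
    (genAt_surjective hℓ)
    ⟨(MvPolynomial.aeval (R := L) (genSwap L N ℓ)).toRingHom,
      fun _ hp => aeval_genSwap_eq_zero hℓ hℓN φ hp⟩

theorem swapAlg_aeval (φ : L →+* ℂ) (hℓ : ℓ.Prime) (hℓN : ¬ ℓ ∣ N)
    (p : MvPolynomial (GenIdx N) L) :
    swapAlg φ hℓ hℓN (MvPolynomial.aeval (genAt L N ℓ) p) =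
      MvPolynomial.aeval (genSwap L N ℓ) p :=
  (MvPolynomial.aeval (R := L) (genAt L N ℓ)).toRingHom.liftOfSurjective_comp_apply
    (genAt_surjective hℓ) _ p

theorem swapAlg_genAt (φ : L →+* ℂ) (hℓ : ℓ.Prime) (hℓN : ¬ ℓ ∣ N) (i : GenIdx N) :
    swapAlg φ hℓ hℓN (genAt L N ℓ i) = genSwap L N ℓ i := by
  have h := swapAlg_aeval φ hℓ hℓN (MvPolynomial.X i)
  rwa [MvPolynomial.aeval_X, MvPolynomial.aeval_X] at h

/-- The Atkin–Lehner substitution is injective. -/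
theorem swapAlg_injective (φ : L →+* ℂ) (hℓ : ℓ.Prime) (hℓN : ¬ ℓ ∣ N) :
    Function.Injective (swapAlg φ hℓ hℓN) := by
  have hinv : ∀ x, swapAlg φ hℓ hℓN (swapAlg φ hℓ hℓN x) = x := by
    intro x
    obtain ⟨p, rfl⟩ := genAt_surjective (L := L) hℓ x
    rw [swapAlg_aeval]
    induction p using MvPolynomial.induction_on with
    | C c =>
      rw [MvPolynomial.aeval_C, MvPolynomial.aeval_C]
      have h := swapAlg_aeval φ hℓ hℓN (MvPolynomial.C c)
      rwa [MvPolynomial.aeval_C, MvPolynomial.aeval_C] at h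
    | add p q hp hq => rw [map_add, map_add, map_add, hp, hq]
    | mul_X p i hp =>
      have hi : swapAlg φ hℓ hℓN (genSwap L N ℓ i) = genAt L N ℓ i :=
        (swapAlg_genAt φ hℓ hℓN (i.1, !i.2)).trans (by rw [genSwap, Bool.not_not])
      rw [map_mul (MvPolynomial.aeval (genSwap L N ℓ)), MvPolynomial.aeval_X,
        map_mul (swapAlg φ hℓ hℓN), map_mul (MvPolynomial.aeval (genAt L N ℓ)),
        MvPolynomial.aeval_X, hp, hi]
  exact Function.LeftInverse.injective hinv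

end Algebra

end Fermat.Agent.Congruence
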