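import Fermat.Agent.Congruence.Norm
import Fermat.Agent.Congruence.AtkinLehner
import Fermat.Agent.X0Analytic.Degree
import Fermat.Agent.Gamma0Count.Index
import Mathlib.FieldTheory.Relrank
import Fermat.Agent.Reduction.Instances

/-!
# The degeneracy map from level `Nℓ`

The swap embedding and the degree `ℓ + 1` of the degeneracy map from level `N * ℓ` to level `N`.
-/

set_option autoImplicit false

noncomputable section

open AlgebraicCurve IntermediateField ModularCurve
open scoped Fermat.Agent.Reduction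

namespace Fermat.Agent.Congruence

open Fermat.Agent.X0Analytic

variable {L : Type} [Field L] [Algebra ℚ L] {N ℓ : ℕ} [NeZero N] [NeZero ℓ]

theorem jL_mul (d : ℕ) [NeZero d] :
    jL L (d * ℓ) = qExpand L ℓ (jL L d) := by
  simp only [jL, coeffEmb, coeffMap_qExpand]
  have : NeZero (ℓ * d) := ⟨mul_ne_zero (NeZero.ne ℓ) (NeZero.ne d)⟩
  rw [qExpand_qExpand]
  exact qExpand_congr (mul_comm d ℓ) _

theorem coe_genAt_false (d : {d : ℕ // d ∣ N}) :
    ((genAt L N ℓ (d, false) : ↥(algGen L (N * ℓ))) : LaurentSeries L) = jL L (d : ℕ) :=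
  rfl

theorem coe_genAt_true (d : {d : ℕ // d ∣ N}) :
    ((genAt L N ℓ (d, true) : ↥(algGen L (N * ℓ))) : LaurentSeries L) = jL L ((d : ℕ) * ℓ) :=
  rfl

theorem swapEmbedding (φ : L →+* ℂ) (hℓ : ℓ.Prime) (hℓN : ¬ ℓ ∣ N) : SwapEmbedding L N ℓ := by
  let g : ↥(algGen L (N * ℓ)) →+* LaurentSeries L :=
    ((algGen L (N * ℓ)).val.toRingHom).comp (swapAlg φ hℓ hℓN)
  have hg : Function.Injective g :=
    Subtype.coe_injective.comp (swapAlg_injective φ hℓ hℓN)
  let h : ↥(FLevel L (N * ℓ)) →+* LaurentSeries L :=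
    IsFractionRing.lift (A := ↥(algGen L (N * ℓ))) (g := g) hg
  have hgen : ∀ i : GenIdx N, h (algToField L (N * ℓ) (genAt L N ℓ i)) = genSwap L N ℓ i :=
    fun i => (IsFractionRing.lift_algebraMap (A := ↥(algGen L (N * ℓ))) hg _).trans
      (congrArg Subtype.val (swapAlg_genAt φ hℓ hℓN i))
  have hC : ∀ c : L, h (algebraMap L _ c) = algebraMap L (LaurentSeries L) c := by
    intro c
    rw [← (algToField L (N * ℓ)).commutes c]
    refine (IsFractionRing.lift_algebraMap (A := ↥(algGen L (N * ℓ))) hg _).trans ?_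
    have h1 := swapAlg_aeval φ hℓ hℓN (MvPolynomial.C c)
    rw [MvPolynomial.aeval_C, MvPolynomial.aeval_C] at h1
    exact congrArg Subtype.val h1
  have hα : h.comp (heckeAlphaBar L N ℓ).toRingHom =
      (qExpand L ℓ).comp (FLevel L N).val.toRingHom := by
    refine hom_ext (fun c => ?_) (fun d hd0 hd => ?_)
    · show h (heckeAlphaBar L N ℓ (algebraMap L _ c)) =
        qExpand L ℓ (algebraMap L (LaurentSeries L) c)
      rw [AlgHom.commutes, hC, algebraMap_laurentSeries_eq_single, qExpand_single, mul_zero]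
    · have hx : (heckeAlphaBar L N ℓ) (algToField L N ⟨jL L d,
          Algebra.subset_adjoin ⟨d, inferInstance, hd, rfl⟩⟩) =
          algToField L (N * ℓ) (genAt L N ℓ (⟨d, hd⟩, false)) :=
        Subtype.ext (by rw [coe_heckeAlphaBar, coe_algToField, coe_algToField, coe_genAt_false])
      have hv : ((genSwap L N ℓ (⟨d, hd⟩, false) : ↥(algGen L (N * ℓ))) : LaurentSeries L) =
          qExpand L ℓ (jL L d) := by
        rw [genSwap, Bool.not_false, coe_genAt_true]; exact jL_mul d
      simp only [RingHom.comp_apply, AlgHom.toRingHom_eq_coe, RingHom.coe_coe,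
        IntermediateField.coe_val, coe_algToField]
      rw [hx, hgen, hv]
  have hβ : h.comp (heckeBetaBar L N ℓ).toRingHom = (FLevel L N).val.toRingHom := by
    refine hom_ext (fun c => ?_) (fun d hd0 hd => ?_)
    · show h (heckeBetaBar L N ℓ (algebraMap L _ c)) = algebraMap L (LaurentSeries L) c
      rw [AlgHom.commutes, hC]
    · have hx : (heckeBetaBar L N ℓ) (algToField L N ⟨jL L d,
          Algebra.subset_adjoin ⟨d, inferInstance, hd, rfl⟩⟩) =
          algToField L (N * ℓ) (genAt L N ℓ (⟨d, hd⟩, true)) :=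
        Subtype.ext (by rw [coe_heckeBetaBar, coe_algToField, coe_algToField, coe_genAt_true]; exact (jL_mul d).symm)
      have hv : ((genSwap L N ℓ (⟨d, hd⟩, true) : ↥(algGen L (N * ℓ))) : LaurentSeries L) =
          jL L d := by
        rw [genSwap, Bool.not_true, coe_genAt_false]
      simp only [RingHom.comp_apply, AlgHom.toRingHom_eq_coe, RingHom.coe_coe,
        IntermediateField.coe_val, coe_algToField]
      rw [hx, hgen, hv]
  exact ⟨h, fun x => RingHom.congr_fun hα x, fun x => RingHom.congr_fun hβ x⟩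

theorem heckeAlphaBar_jEl : heckeAlphaBar L N ℓ (jEl L N) = jEl L (N * ℓ) :=
  Subtype.ext (by rw [coe_heckeAlphaBar, jEl, jEl, coe_algToField, coe_algToField, jAlg, jAlg])

/-- The degeneracy map `α` from level `N ℓ` to level `N` has degree `ℓ + 1`. -/
theorem finrankAlong_heckeAlphaBar (φ : L →+* ℂ) (hℓ : ℓ.Prime) (hℓN : ¬ ℓ ∣ N) :
    finrankAlong L (heckeAlphaBar L N ℓ) = ℓ + 1 := by
  set α : ↥(FLevel L N) →ₐ[L] ↥(FLevel L (N * ℓ)) := heckeAlphaBar L N ℓ with hα
  have h1 : IntermediateField.relfinrank (jField L (N * ℓ)) α.fieldRange = dedekindPsi N := by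
    have hmap : (jField L N).map α = jField L (N * ℓ) := by
      rw [jField, IntermediateField.adjoin_map, Set.image_singleton, hα, heckeAlphaBar_jEl]
    rw [← hmap, AlgHom.fieldRange_eq_map, IntermediateField.relfinrank_map_map,
      IntermediateField.relfinrank_top_right, finrank_jField φ]
  have h2 : finrankAlong L (heckeAlphaBar L N ℓ) =
      IntermediateField.relfinrank α.fieldRange ⊤ := by
    rw [IntermediateField.relfinrank_top_right]
    let := algebraAlong (heckeAlphaBar L N ℓ)
    exact Algebra.finrank_eq_of_equiv_equiv (AlgEquiv.ofInjectiveField α).toRingEquiv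
      (RingEquiv.refl _) (by ext x; rfl)
  have hle : jField L (N * ℓ) ≤ α.fieldRange := by
    rw [jField, IntermediateField.adjoin_simple_le_iff]
    exact ⟨jEl L N, heckeAlphaBar_jEl⟩
  have h3 := IntermediateField.relfinrank_mul_relfinrank hle
    (le_top : α.fieldRange ≤ ⊤)
  rw [h1, IntermediateField.relfinrank_top_right (jField L (N * ℓ)), finrank_jField φ,
    Gamma0Count.dedekindPsi_mul_prime (NeZero.ne N) hℓ, if_neg hℓN, mul_comm] at h3
  rw [h2]
  exact mul_right_cancel₀ (fun h0 => by
    have := Gamma0Count.card_cosetSpace N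
    rw [h0] at this
    exact Nat.card_pos.ne' this) h3

end Fermat.Agent.Congruence
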