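import Fermat.Agent.Congruence.Specialization
import Fermat.Agent.Congruence.LevelData
import Fermat.Agent.Congruence.CurveFacts
import Fermat.Agent.FunctionFieldRR.RationalBase

/-!
# Specialisation for `J₀(N)`

`SpecializationExists` for `J₀(N)`, from the Hecke inputs and injectivity of reduction on
prime-to-`ℓ` torsion.
-/

set_option autoImplicit false

noncomputable section

open AlgebraicCurve ModularCurve IntermediateField

namespace Fermat.Agent.Congruence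

local notation "Qbar" => AlgebraicClosure ℚ

theorem levelFacts (N ℓ : ℕ) [NeZero N] [NeZero ℓ] (hℓ : ℓ.Prime) (hℓN : ¬ ℓ ∣ N)
    (hH : HeckeInputsAlong Qbar N ℓ) : LevelFacts N ℓ := by
  have : Algebra.IsAlgebraic ℚ Qbar := AlgebraicClosure.isAlgebraic ℚ
  let φ : Qbar →+* ℂ := (IsAlgClosed.lift : Qbar →ₐ[ℚ] ℂ).toRingHom
  exact ⟨hH, swapEmbedding φ hℓ hℓN, finrankAlong_heckeAlphaBar φ hℓ hℓN⟩

theorem goodPrimeFacts (N ℓ : ℕ) [NeZero N] [NeZero ℓ] (hℓ : ℓ.Prime) (hℓN : ¬ ℓ ∣ N)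
    (hH : HeckeInputsAlong Qbar N ℓ)
    (hinj : ∀ (A : ValuationSubring Qbar), A.LiesOverPrime ℓ → ∀ (m : ℕ), ¬ ℓ ∣ m →
      ∀ z : JZero N, m • z = 0 → reductionModL A N z = 0 → z = 0) :
    GoodPrimeFacts N ℓ := by
  have := isFunctionField_modularFunctionFieldBar N
  exact ⟨Fermat.Agent.FunctionFieldRR.hasPrincipalDivisors,
    fun P => Fermat.Agent.FunctionFieldRR.deg_eq_one P, weakRiemann, levelFacts N ℓ hℓ hℓN hH, hinj⟩

/-- `SpecializationExists` from commuting Hecke operators, their inputs and injectivity of reduction on prime-to-`ℓ` torsion. -/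
theorem specializationExists_of_hecke_injective (N p : ℕ) [NeZero N]
    (hcomm : HeckeOperatorsCommuteBar N)
    (hH : ∀ (ℓ : ℕ) [NeZero ℓ], ℓ.Prime → ¬ ℓ ∣ N → HeckeInputsAlong Qbar N ℓ)
    (hinj : ∀ (ℓ : ℕ), ℓ.Prime → ¬ ℓ ∣ N → ∀ (A : ValuationSubring Qbar), A.LiesOverPrime ℓ →
      ∀ (m : ℕ), ¬ ℓ ∣ m → ∀ z : JZero N, m • z = 0 → reductionModL A N z = 0 → z = 0) :
    letI := heckeModuleBar N
    ∀ (_ : SMulCommClass (Qbar ≃ₐ[ℚ] Qbar) HeckeAlg (JZero N)),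
      SpecializationExists (K := ℚ) (L := Qbar) N p (JZero N) :=
  specializationExists_of_facts N p hcomm fun ℓ _ hℓ hℓN =>
    goodPrimeFacts N ℓ hℓ hℓN (hH ℓ hℓ hℓN) (hinj ℓ hℓ hℓN)

end Fermat.Agent.Congruence
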