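import Fermat.Prelude.Def_AlgebraicCurve_Correspondence

/-!
# Correspondences and principal divisors

A correspondence sends the divisor of `f` to the divisor of the norm of the pullback of `f`,
and preserves effective divisors.
-/

set_option autoImplicit false

noncomputable section

open AlgebraicCurve

namespace Fermat.Agent.Congruence

variable {K F F' : Type*} [Field K] [Field F] [Field F'] [Algebra K F] [Algebra K F']

theorem pullbackAlong_eq_ord [HasPrincipalDivisors K F'] (φ : F →ₐ[K] F')
    (hφ : φ.toRingHom.IsIntegral) {D : Divisor K F} {f : F} (hD : ∀ v : Place K F, D v = v.ord f)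
    (w : Place K F') : Divisor.pullbackAlong φ hφ D w = w.ord (φ f) := by
  rw [Divisor.pullbackAlong_apply, hD, ← Place.ord_restrictAlong φ hφ w f]

theorem pushforwardAlong_eq_ord (ψ : F →ₐ[K] F') (hψ : ψ.toRingHom.IsIntegral)
    (hfin : FiniteAlong K ψ) (hN : NormFormulaAlong K ψ hfin) {E : Divisor K F'} {f : F'}
    (hf : f ≠ 0) (hE : ∀ w : Place K F', E w = w.ord f) (v : Place K F) :
    Divisor.pushforwardAlong ψ hψ E v = v.ord (letI := algebraAlong ψ; Algebra.norm F f) := by
  let := algebraAlong ψ
  have := isScalarTower_along ψ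
  have := isIntegral_along ψ hψ
  have : Module.Finite F F' := hfin
  exact hN f hf E hE v

theorem correspondence_eq_ord [HasPrincipalDivisors K F'] (φ ψ : F →ₐ[K] F')
    (hφ : φ.toRingHom.IsIntegral) (hψ : ψ.toRingHom.IsIntegral) (hfin : FiniteAlong K ψ)
    (hN : NormFormulaAlong K ψ hfin) {D : Divisor K F} {f : F} (hf : f ≠ 0)
    (hD : ∀ v : Place K F, D v = v.ord f) (v : Place K F) :
    Divisor.correspondence φ ψ hφ hψ D v =
      v.ord (letI := algebraAlong ψ; Algebra.norm F (φ f)) := by
  rw [Divisor.correspondence_apply]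
  exact pushforwardAlong_eq_ord ψ hψ hfin hN ((map_ne_zero φ).mpr hf)
    (pullbackAlong_eq_ord φ hφ hD) v

theorem pushforwardAlong_nonneg (ψ : F →ₐ[K] F') (hψ : ψ.toRingHom.IsIntegral)
    {E : Divisor K F'} (hE : ∀ w, 0 ≤ E w) (v : Place K F) :
    0 ≤ Divisor.pushforwardAlong ψ hψ E v := by
  classical
  rw [← Finsupp.sum_single E, map_finsuppSum, Finsupp.sum_apply]
  refine Finset.sum_nonneg fun w _ => ?_
  beta_reduce
  rw [Divisor.pushforwardAlong_single, Finsupp.single_apply]
  split_ifs
  · exact mul_nonneg (hE w) (Int.natCast_nonneg _)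
  · exact le_rfl

/-- A correspondence preserves effective divisors. -/
theorem correspondence_nonneg [HasPrincipalDivisors K F'] (φ ψ : F →ₐ[K] F')
    (hφ : φ.toRingHom.IsIntegral) (hψ : ψ.toRingHom.IsIntegral) {D : Divisor K F}
    (hD : ∀ v, 0 ≤ D v) (v : Place K F) : 0 ≤ Divisor.correspondence φ ψ hφ hψ D v :=
  pushforwardAlong_nonneg ψ hψ
    (fun w => by
      rw [Divisor.pullbackAlong_apply]
      exact mul_nonneg (Int.natCast_nonneg _) (hD _)) v

end Fermat.Agent.Congruence
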