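import Fermat.Prelude.Def_ModularCurve_X0
import Fermat.Prelude.Def_ModularCurve_LaurentCoeff
import Fermat.Prelude.Thm_ModularCurve_coeffMap_qExpand
import Mathlib.Algebra.CharP.Frobenius
import Mathlib.RingTheory.PowerSeries.Expand

/-!
# Laurent series for the congruence relation

Lemmas on Laurent series for the congruence relation: the substitution `t ↦ c·t`,
contraction along `qExpand`, and `f ^ p = qExpand p (Frob f)` in characteristic `p`.
-/

set_option autoImplicit false

noncomputable section

open HahnSeries ModularCurve

namespace Fermat.Agent.Congruence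

section Twist

variable {R : Type*} [CommRing R]

/-- The substitution `t ↦ c·t` on Laurent series, for a unit `c`. -/
def twist (c : Rˣ) : LaurentSeries R →+* LaurentSeries R where
  toFun x := ⟨fun n => ((c ^ n : Rˣ) : R) * x.coeff n,
    x.isPWO_support.mono fun n hn h => hn (by simp [h])⟩
  map_one' := by
    ext n
    rcases eq_or_ne n 0 with rfl | hn
    · simp
    · simp [HahnSeries.coeff_one, hn]
  map_zero' := by ext n; simp
  map_add' x y := by ext n; simp [mul_add]
  map_mul' x y := by
    ext n
    show ((c ^ n : Rˣ) : R) * (x * y).coeff n = _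
    have hs : ∀ z : LaurentSeries R,
        Function.support (fun m => ((c ^ m : Rˣ) : R) * z.coeff m) = z.support := by
      intro z
      ext m
      simp [Function.mem_support, HahnSeries.mem_support]
    rw [HahnSeries.coeff_mul, HahnSeries.coeff_mul, Finset.mul_sum]
    refine Finset.sum_congr ?_ fun ij hij => ?_
    · ext ij
      simp [Finset.mem_antidiagonal, HahnSeries.mem_support]
    · simp only [Finset.mem_antidiagonal] at hij
      simp only
      rw [← hij.2.2, zpow_add, Units.val_mul]
      ring

@[simp]
theorem twist_coeff (c : Rˣ) (x : LaurentSeries R) (n : ℤ) :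
    (twist c x).coeff n = ((c ^ n : Rˣ) : R) * x.coeff n :=
  rfl

@[simp]
theorem twist_one (x : LaurentSeries R) : twist (1 : Rˣ) x = x := by
  ext n; simp

theorem twist_qExpand (c : Rˣ) (n : ℕ) [NeZero n] (x : LaurentSeries R) :
    twist c (qExpand R n x) = qExpand R n (twist (c ^ n) x) := by
  ext k
  by_cases hk : (n : ℤ) ∣ k
  · obtain ⟨m, rfl⟩ := hk
    rw [twist_coeff, qExpand_coeff_mul, qExpand_coeff_mul, twist_coeff, zpow_mul, zpow_natCast]
  · rw [twist_coeff, qExpand_coeff_of_not_dvd n _ hk, qExpand_coeff_of_not_dvd n _ hk, mul_zero]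

theorem twist_qExpand_of_pow_eq_one {c : Rˣ} {n : ℕ} [NeZero n] (hc : c ^ n = 1)
    (x : LaurentSeries R) : twist c (qExpand R n x) = qExpand R n x := by
  rw [twist_qExpand, hc, twist_one]

theorem twist_single_zero (c : Rˣ) (r : R) :
    twist c (HahnSeries.single (0 : ℤ) r) = HahnSeries.single (0 : ℤ) r := by
  ext n
  rcases eq_or_ne n 0 with rfl | hn
  · simp
  · simp [HahnSeries.coeff_single_of_ne hn]

theorem coeffMap_twist {S : Type*} [CommRing S] (f : R →+* S) (c : Rˣ) (x : LaurentSeries R) :
    coeffMap f (twist c x) = twist (Units.map (f : R →* S) c) (coeffMap f x) := by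
  ext n
  simp [← map_zpow]

end Twist

section Contract

variable {R S : Type*} [CommRing R] [CommRing S]

/-- Contraction: a left inverse of `qExpand R n`, keeping only the exponents divisible by `n`. -/
def contract (n : ℕ) [NeZero n] (x : LaurentSeries R) : LaurentSeries R :=
  HahnSeries.ofSuppBddBelow (fun k => x.coeff ((n : ℤ) * k))
    (HahnSeries.forallLTEqZero_supp_BddBelow _ (min x.order 0) (by
      intro m hm
      refine HahnSeries.coeff_eq_zero_of_lt_order ?_
      have h1 : (1 : ℤ) ≤ (n : ℤ) := by
        exact_mod_cast Nat.one_le_iff_ne_zero.mpr (NeZero.ne n)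
      have h2 := min_le_left x.order 0
      have h3 := min_le_right x.order 0
      nlinarith))

@[simp]
theorem contract_coeff (n : ℕ) [NeZero n] (x : LaurentSeries R) (k : ℤ) :
    (contract n x).coeff k = x.coeff ((n : ℤ) * k) := by
  simp [contract]

theorem contract_qExpand (n : ℕ) [NeZero n] (x : LaurentSeries R) :
    contract n (qExpand R n x) = x := by
  ext k; simp

theorem coeffMap_contract (f : R →+* S) (n : ℕ) [NeZero n] (x : LaurentSeries R) :
    coeffMap f (contract n x) = contract n (coeffMap f x) := by
  ext k; simp

theorem coeffMap_injective {f : R →+* S} (hf : Function.Injective f) :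
    Function.Injective (coeffMap f) := by
  intro x y h
  ext k
  exact hf (by simpa using congrArg (fun z => z.coeff k) h)

/-- If `qExpand n z` has coefficients in the image of `R`, then so does `z`. -/
theorem exists_qExpand_eq {f : R →+* S} (hf : Function.Injective f) (n : ℕ) [NeZero n]
    {z : LaurentSeries S} {w : LaurentSeries R} (h : qExpand S n z = coeffMap f w) :
    ∃ z' : LaurentSeries R, coeffMap f z' = z ∧ qExpand R n z' = w := by
  have hz : coeffMap f (contract n w) = z := by
    rw [coeffMap_contract, ← h, contract_qExpand]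
  refine ⟨contract n w, hz, coeffMap_injective hf ?_⟩
  rw [coeffMap_qExpand, hz, h]

end Contract

section Frobenius

variable {k : Type*} [CommRing k] (p : ℕ) [Fact p.Prime] [CharP k p]

theorem powerSeries_pow_char (f : PowerSeries k) :
    f ^ p = PowerSeries.map (frobenius k p)
      (PowerSeries.expand p (Fact.out : p.Prime).ne_zero f) := by
  have h := MvPowerSeries.map_iterateFrobenius_expand (σ := Unit) (R := k) p
    (Fact.out : p.Prime).ne_zero f 1
  simp only [iterateFrobenius_one, pow_one] at h
  exact h.symm

/-- In characteristic `p`, `f ^ p` is `qExpand p` of the Frobenius twist of `f`. -/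
theorem laurent_pow_char [Nontrivial k] (f : LaurentSeries k) :
    f ^ p = haveI : NeZero p := ⟨(Fact.out : p.Prime).ne_zero⟩
      qExpand k p (coeffMap (frobenius k p) f) := by
  have : NeZero p := ⟨(Fact.out : p.Prime).ne_zero⟩
  have hps : ∀ g : PowerSeries k, (HahnSeries.ofPowerSeries ℤ k g) ^ p =
      qExpand k p (coeffMap (frobenius k p) (HahnSeries.ofPowerSeries ℤ k g)) := by
    intro g
    ext m
    rw [← map_pow, powerSeries_pow_char]
    by_cases hm : (p : ℤ) ∣ m
    · obtain ⟨j, rfl⟩ := hm
      rw [qExpand_coeff_mul, coeffMap_coeff]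
      rcases le_or_gt 0 j with hj | hj
      · lift j to ℕ using hj
        rw [← Nat.cast_mul, HahnSeries.ofPowerSeries_apply_coeff,
          HahnSeries.ofPowerSeries_apply_coeff, PowerSeries.coeff_map, PowerSeries.coeff_expand_mul]
      · have : (p : ℤ) * j < 0 :=
          mul_neg_of_pos_of_neg (by exact_mod_cast (Fact.out : p.Prime).pos) hj
        rw [ofPowerSeries_coeff_of_neg _ this, ofPowerSeries_coeff_of_neg _ hj, map_zero]
    · rw [qExpand_coeff_of_not_dvd p _ hm]
      rcases le_or_gt 0 m with h0 | h0
      · lift m to ℕ using h0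
        rw [HahnSeries.ofPowerSeries_apply_coeff, PowerSeries.coeff_map,
          PowerSeries.coeff_expand_of_not_dvd _ _ _ (fun hd => hm (by exact_mod_cast hd)), map_zero]
      · exact ofPowerSeries_coeff_of_neg _ h0
  conv_lhs => rw [← f.single_order_mul_powerSeriesPart]
  rw [mul_pow]
  conv_rhs => rw [← f.single_order_mul_powerSeriesPart, map_mul, map_mul]
  congr 1
  · rw [coeffMap_single, qExpand_single, HahnSeries.single_pow, one_pow, nsmul_eq_mul, (frobenius k p).map_one]
  · exact hps _

end Frobenius

end Fermat.Agent.Congruence
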