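import Fermat.Prelude.Def_ModularCurve_HeckeOperator
import Fermat.Prelude.Def_ModularCurve_JqCoeff
import Fermat.Prelude.Def_ModularCurve_X0ModL
import Fermat.Agent.Congruence.Laurent
import Mathlib.RingTheory.Norm.Transitivity
import Mathlib.FieldTheory.Perfect
import Mathlib.FieldTheory.IsAlgClosed.Basic
import Mathlib.RingTheory.RootsOfUnity.PrimitiveRoots
import Fermat.Agent.Reduction.Instances

/-!
# The norm from level `Nℓ` to level `N`

The `q`-expansion of the norm of `β y` from level `N * ℓ` down to level `N`, and its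
reduction modulo a place above `ℓ`.
-/

set_option autoImplicit false

noncomputable section

open HahnSeries ModularCurve AlgebraicCurve
open scoped Fermat.Agent.Reduction

namespace Fermat.Agent.Congruence

section Generic

variable {F G M : Type*} [Field F] [Field G] [Field M] [CharZero F]

/-- A norm is the product over any full family of distinct conjugate homomorphisms into a
field, not necessarily algebraically closed. -/
theorem map_norm_eq_prod {ι : Type*} [Fintype ι] [Algebra F G] [Module.Finite F G]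
    (g : F →+* M) (f : ι → G →+* M) (hf : ∀ i x, f i (algebraMap F G x) = g x)
    (hinj : Function.Injective f) (hcard : Fintype.card ι = Module.finrank F G) (y : G) :
    g (Algebra.norm F y) = ∏ i, f i y := by
  classical
  let j : M →+* AlgebraicClosure M := algebraMap M (AlgebraicClosure M)
  let : Algebra F (AlgebraicClosure M) := (j.comp g).toAlgebra
  let e : ι → (G →ₐ[F] AlgebraicClosure M) := fun i =>
    { toRingHom := j.comp (f i), commutes' := fun x => congrArg j (hf i x) }
  have he : Function.Injective e := fun i i' h =>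
    hinj (RingHom.ext fun x => j.injective (congrArg (fun q : G →ₐ[F] AlgebraicClosure M => q x) h))
  have hbij : Function.Bijective e :=
    (Fintype.bijective_iff_injective_and_card e).2 ⟨he, by rw [AlgHom.card, hcard]⟩
  apply j.injective
  rw [map_prod]
  exact (Algebra.norm_eq_prod_embeddings F (AlgebraicClosure M) y).trans
    (hbij.prod_comp (fun σ : G →ₐ[F] AlgebraicClosure M => σ y)).symm

end Generic

section

variable (L : Type*) [Field L] [Algebra ℚ L] (N ℓ : ℕ) [NeZero N] [NeZero ℓ]

/-- The conjugate embedding exists: a ring hom of level `N ℓ` into `L((t))` which is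
`x ↦ x(t^ℓ)` on level `N` and `β x ↦ x(t)`. -/
def SwapEmbedding : Prop :=
  ∃ h : laurentBaseChange L (modularFunctionFieldFull (N * ℓ)) →+* LaurentSeries L,
    (∀ x : laurentBaseChange L (modularFunctionFieldFull N),
      h (heckeAlphaBar L N ℓ x) = qExpand L ℓ (x : LaurentSeries L)) ∧
    ∀ x : laurentBaseChange L (modularFunctionFieldFull N),
      h (heckeBetaBar L N ℓ x) = (x : LaurentSeries L)

/-- The norm along the inclusion of level `N` into level `N ℓ`. -/
def normAlpha (x : laurentBaseChange L (modularFunctionFieldFull (N * ℓ))) :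
    laurentBaseChange L (modularFunctionFieldFull N) :=
  letI := algebraAlong (heckeAlphaBar L N ℓ)
  Algebra.norm (laurentBaseChange L (modularFunctionFieldFull N)) x

theorem coeffEmb_jq : coeffEmb L jq = jqModC L := by
  rw [← jqModC_rat]
  exact coeffMap_jqModC _

theorem jqModC_mem_laurentBaseChange :
    jqModC L ∈ laurentBaseChange L (modularFunctionFieldFull N) := by
  rw [← coeffEmb_jq]
  refine coeffEmb_mem_laurentBaseChange L ?_
  simpa [qExpand_one_apply] using jqd_mem_full N (one_dvd N)

theorem qExpand_normAlpha (hswap : SwapEmbedding L N ℓ) (hℓ : 1 < ℓ)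
    (hfin : FiniteAlong L (heckeAlphaBar L N ℓ))
    (hdeg : finrankAlong L (heckeAlphaBar L N ℓ) = ℓ + 1)
    (ζ : Lˣ) (hζ : IsPrimitiveRoot (ζ : L) ℓ)
    (y : laurentBaseChange L (modularFunctionFieldFull N)) :
    qExpand L ℓ (normAlpha L N ℓ (heckeBetaBar L N ℓ y) : LaurentSeries L) =
      qExpand L ℓ (qExpand L ℓ (y : LaurentSeries L)) *
        ∏ b : Fin ℓ, twist (ζ ^ (b : ℕ)) (y : LaurentSeries L) := by
  obtain ⟨h, hα, hβ⟩ := hswap
  have : CharZero L := charZero_of_injective_algebraMap (algebraMap ℚ L).injective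
  have : CharZero (laurentBaseChange L (modularFunctionFieldFull N)) :=
    charZero_of_injective_algebraMap
      (algebraMap L (laurentBaseChange L (modularFunctionFieldFull N))).injective
  let algFG := algebraAlong (heckeAlphaBar L N ℓ)
  have : Module.Finite (laurentBaseChange L (modularFunctionFieldFull N))
      (laurentBaseChange L (modularFunctionFieldFull (N * ℓ))) := hfin
  have hz : ∀ b : ℕ, (ζ ^ b : Lˣ) ^ ℓ = 1 := fun b => by
    have hζ1 : ζ ^ ℓ = 1 := Units.ext (by simpa using hζ.pow_eq_one)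
    rw [← pow_mul, mul_comm, pow_mul, hζ1, one_pow]
  let g : laurentBaseChange L (modularFunctionFieldFull N) →+* LaurentSeries L :=
    (qExpand L ℓ).comp (laurentBaseChange L (modularFunctionFieldFull N)).val.toRingHom
  let f : Option (Fin ℓ) →
      laurentBaseChange L (modularFunctionFieldFull (N * ℓ)) →+* LaurentSeries L := fun o =>
    o.elim ((qExpand L ℓ).comp
      (laurentBaseChange L (modularFunctionFieldFull (N * ℓ))).val.toRingHom)
      (fun b => (twist (ζ ^ (b : ℕ))).comp h)
  have hf : ∀ o x, f o (heckeAlphaBar L N ℓ x) = g x := by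
    rintro (_ | b) x
    · exact congrArg (qExpand L ℓ) (coe_heckeAlphaBar N ℓ x)
    · show twist (ζ ^ (b : ℕ)) (h (heckeAlphaBar L N ℓ x)) = qExpand L ℓ (x : LaurentSeries L)
      rw [hα, twist_qExpand_of_pow_eq_one (hz b)]
  have hnone : ∀ x, f none (heckeBetaBar L N ℓ x) =
      qExpand L ℓ (qExpand L ℓ (x : LaurentSeries L)) := fun x =>
    congrArg (qExpand L ℓ) (coe_heckeBetaBar N ℓ x)
  have hsome : ∀ (b : Fin ℓ) x, f (some b) (heckeBetaBar L N ℓ x) =
      twist (ζ ^ (b : ℕ)) (x : LaurentSeries L) := fun b x =>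
    congrArg (twist (ζ ^ (b : ℕ))) (hβ x)
  let jel : laurentBaseChange L (modularFunctionFieldFull N) :=
    ⟨jqModC L, jqModC_mem_laurentBaseChange L N⟩
  have hne : ∀ b : Fin ℓ,
      qExpand L ℓ (qExpand L ℓ (jqModC L)) ≠ twist (ζ ^ (b : ℕ)) (jqModC L) := by
    intro b hb
    have h1 := congrArg (fun z => z.coeff (-1 : ℤ)) hb
    have hnd : ¬ (ℓ : ℤ) ∣ (-1 : ℤ) := fun hd => by
      rw [Int.dvd_neg] at hd
      have := Int.le_of_dvd one_pos hd
      omega
    simp only [qExpand_coeff_of_not_dvd ℓ _ hnd, twist_coeff, coeff_jqModC_neg_one, mul_one] at h1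
    exact Units.ne_zero _ h1.symm
  have hinj : Function.Injective f := by
    intro o o' hoo
    have hj := congrArg (fun q : _ →+* LaurentSeries L => q (heckeBetaBar L N ℓ jel)) hoo
    rcases o with _ | b <;> rcases o' with _ | b' <;>
      simp only [hnone, hsome] at hj
    · rfl
    · exact absurd hj (hne b')
    · exact absurd hj.symm (hne b)
    · have h1 := congrArg (fun z => z.coeff (-1 : ℤ)) hj
      simp only [twist_coeff, jel, coeff_jqModC_neg_one, mul_one] at h1
      have h2 : (ζ : L) ^ (b : ℕ) = (ζ : L) ^ (b' : ℕ) := by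
        simpa using h1
      exact congrArg some (Fin.ext (hζ.pow_inj b.isLt b'.isLt h2))
  have hmain := map_norm_eq_prod g f hf hinj
    (by rw [Fintype.card_option, Fintype.card_fin]; exact hdeg.symm) (heckeBetaBar L N ℓ y)
  rw [Fintype.prod_option, hnone] at hmain
  simp only [hsome] at hmain
  exact hmain

end

section Reduction

variable {L : Type*} [Field L] [Algebra ℚ L] [IsAlgClosed L] (A : ValuationSubring L)
variable {k : Type*} [Field k] (π : A →+* k) (N ℓ : ℕ) [NeZero N] [Fact ℓ.Prime] [CharP k ℓ]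

/-- The reduction of the norm of `β y` along `α` modulo a place above `ℓ`. -/
theorem exists_normAlpha_reduction
    (hswap : haveI : NeZero ℓ := ⟨(Fact.out : ℓ.Prime).ne_zero⟩; SwapEmbedding L N ℓ)
    (hfin : haveI : NeZero ℓ := ⟨(Fact.out : ℓ.Prime).ne_zero⟩
      FiniteAlong L (heckeAlphaBar L N ℓ))
    (hdeg : haveI : NeZero ℓ := ⟨(Fact.out : ℓ.Prime).ne_zero⟩
      finrankAlong L (heckeAlphaBar L N ℓ) = ℓ + 1)
    (y : LaurentSeries A)
    (hy : coeffMap A.subtype y ∈ laurentBaseChange L (modularFunctionFieldFull N)) :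
    haveI : NeZero ℓ := ⟨(Fact.out : ℓ.Prime).ne_zero⟩
    ∃ z : LaurentSeries A,
      coeffMap A.subtype z = (normAlpha L N ℓ (heckeBetaBar L N ℓ ⟨_, hy⟩) : LaurentSeries L) ∧
      coeffMap π z = qExpand k ℓ (coeffMap π y) * coeffMap (frobenius k ℓ) (coeffMap π y) := by
  have : NeZero ℓ := ⟨(Fact.out : ℓ.Prime).ne_zero⟩
  have : CharZero L := charZero_of_injective_algebraMap (algebraMap ℚ L).injective
  have hinj : Function.Injective A.subtype := Subtype.coe_injective
  obtain ⟨z₀, hz₀⟩ := HasEnoughRootsOfUnity.prim (M := L) (n := ℓ)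
  have hz₀A : z₀ ∈ A := by
    have h1 : IsIntegral A z₀ :=
      IsIntegral.of_pow (Fact.out : ℓ.Prime).pos (by rw [hz₀.pow_eq_one]; exact isIntegral_one)
    obtain ⟨a, ha⟩ := IsIntegrallyClosed.isIntegral_iff.mp h1
    exact ha ▸ a.2
  let ζA : Aˣ := (IsUnit.of_pow_eq_one (a := (⟨z₀, hz₀A⟩ : A))
    (Subtype.ext (by simpa using hz₀.pow_eq_one)) (NeZero.ne ℓ)).unit
  let ζ : Lˣ := Units.map (A.subtype : A →* L) ζA
  have hζ : IsPrimitiveRoot (ζ : L) ℓ := by
    simpa [ζ, ζA] using hz₀
  have key := qExpand_normAlpha L N ℓ hswap (Fact.out : ℓ.Prime).one_lt hfin hdeg ζ hζ ⟨_, hy⟩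
  let w : LaurentSeries A := qExpand A ℓ (qExpand A ℓ y) * ∏ b : Fin ℓ, twist (ζA ^ (b : ℕ)) y
  have hw : qExpand L ℓ (normAlpha L N ℓ (heckeBetaBar L N ℓ ⟨_, hy⟩) : LaurentSeries L) =
      coeffMap A.subtype w := by
    rw [key]
    simp only [w, map_mul, map_prod, coeffMap_qExpand, coeffMap_twist, ζ, map_pow]
  obtain ⟨z, hz, hzw⟩ := exists_qExpand_eq hinj ℓ hw
  refine ⟨z, hz, ?_⟩
  apply qExpand_injective (R := k) ℓ
  rw [← coeffMap_qExpand, hzw]
  have hπ1 : Units.map (π : A →* k) ζA = 1 := by
    have h1 : (π (ζA : A)) ^ ℓ = 1 := by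
      rw [← map_pow]
      have : (ζA : A) ^ ℓ = 1 := Subtype.ext (by simpa [ζA] using hz₀.pow_eq_one)
      rw [this, map_one]
    have h2 : (π (ζA : A) - 1) ^ ℓ = 0 := by rw [sub_pow_char, h1, one_pow, sub_self]
    ext
    simpa [sub_eq_zero] using pow_eq_zero_iff (NeZero.ne ℓ) |>.mp h2
  simp only [w, map_mul, map_prod, coeffMap_qExpand, coeffMap_twist, map_pow, hπ1, one_pow,
    twist_one, Finset.prod_const, Finset.card_univ, Fintype.card_fin]
  rw [laurent_pow_char ℓ (coeffMap π y)]

end Reduction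

end Fermat.Agent.Congruence
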