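import Fermat.Prelude.Def_ModularCurve_ReductionModL
import Fermat.Prelude.Def_FLTPrelim_Ramification
import Fermat.Prelude.Def_EllipticCurve_FrobeniusTrace
import Fermat.Agent.Congruence.Laurent
import Fermat.Agent.Congruence.Bounded
import Fermat.Agent.Reduction.Instances

/-!
# Rigidity of reduction

Reduction of divisors is rigid: an additive combination of bounded operations on divisors which
reduces to zero on integral principal divisors reduces to zero in degree zero.
In particular reduction is invariant under inertia.
-/

set_option autoImplicit false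

noncomputable section

open AlgebraicCurve ModularCurve IntermediateField HahnSeries
open scoped Fermat.Agent.Reduction

namespace Fermat.Agent.Congruence

local notation "Qbar" => AlgebraicClosure ℚ

section Coeff

variable {K : Type*} [Field K]

/-- Applying an endomorphism to the coefficients preserves the function field. -/
theorem coeffMap_mem_fullC (g : K →+* K) {N : ℕ} {x : LaurentSeries K}
    (hx : x ∈ modularFunctionFieldFullC K N) : coeffMap g x ∈ modularFunctionFieldFullC K N := by
  have hx' : x ∈ Subfield.closure
      (Set.range (algebraMap K (LaurentSeries K)) ∪ divisorExpansionsC K N) := hx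
  clear hx
  induction hx' using Subfield.closure_induction with
  | mem y hy =>
      rcases hy with ⟨a, rfl⟩ | ⟨d, hd, hdvd, rfl⟩
      · rw [coeffMap_algebraMap]
        exact (modularFunctionFieldFullC K N).algebraMap_mem _
      · have := hd
        rw [coeffMap_qExpand, coeffMap_jqModC]
        exact jqModCd_mem_full K N hdvd
  | one => simp
  | add x y hx hy ihx ihy => simpa using add_mem ihx ihy
  | neg x hx ihx => simpa using neg_mem ihx
  | inv x hx ihx => simpa using inv_mem ihx
  | mul x y hx hy ihx ihy => simpa using mul_mem ihx ihy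

end Coeff

section Rigidity

variable {L : Type*} [Field L] [Algebra ℚ L] {A : ValuationSubring L}
variable {k : Type*} [Field k] {π : A →+* k} {N : ℕ}
variable {r : Place L (laurentBaseChange L (modularFunctionFieldFull N)) →
  Place k (modularFunctionFieldFullC k N)}

/-- An additive bounded operation killing integral principal divisors kills degree zero divisors. -/
theorem reduction_eq_zero_of_integral
    [HasPrincipalDivisors L (laurentBaseChange L (modularFunctionFieldFull N))]
    (hdeg : ∀ P : Place L (laurentBaseChange L (modularFunctionFieldFull N)), P.deg = 1)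
    (hR : WeakRiemann L (laurentBaseChange L (modularFunctionFieldFull N)))
    (hgen : PrincipalGeneratedByIntegral A π N)
    (Φ : Divisor L (laurentBaseChange L (modularFunctionFieldFull N)) →+
      Divisor k (modularFunctionFieldFullC k N))
    (hprin : ∀ D ∈ integralPrincipalDivisors A π N, Φ D = 0)
    (C : ℤ) (hbd : ∀ P Q, |Φ (Finsupp.single P 1) Q| ≤ C)
    {D : Divisor L (laurentBaseChange L (modularFunctionFieldFull N))}
    (hD : Divisor.degree D = 0) : Φ D = 0 := by
  have hker : Divisor.principal (K := L)
      (F := laurentBaseChange L (modularFunctionFieldFull N)) ≤ Φ.ker :=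
    le_trans hgen ((AddSubgroup.closure_le _).mpr hprin)
  ext Q
  exact apply_eq_zero_of_bounded hdeg hR ((Finsupp.applyAddHom Q).comp Φ)
    (fun E hE => by
      show Φ E Q = 0
      rw [hker hE]; rfl) C (fun P => hbd P Q) hD

end Rigidity

section Galois


variable (A : ValuationSubring Qbar) {σ : Qbar ≃ₐ[ℚ] Qbar}

/-- An element of the decomposition group acting on the valuation ring. -/
def actRingHom (h : σ ∈ A.decompositionSubgroup ℚ) : A →+* A :=
  MulSemiringAction.toRingHom (A.decompositionSubgroup ℚ) A ⟨σ, h⟩

theorem coeffMap_subtype_act (h : σ ∈ A.decompositionSubgroup ℚ) (y : LaurentSeries A) :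
    coeffMap A.subtype (coeffMap (actRingHom A h) y) =
      coeffMap (σ : Qbar →+* Qbar) (coeffMap A.subtype y) := by
  ext n; rfl

theorem residue_actRingHom_of_inertia (h : σ ∈ A.decompositionSubgroup ℚ)
    (hi : ∀ x : IsLocalRing.ResidueField A, (⟨σ, h⟩ : A.decompositionSubgroup ℚ) • x = x)
    (y : LaurentSeries A) :
    coeffMap (IsLocalRing.residue A) (coeffMap (actRingHom A h) y) =
      coeffMap (IsLocalRing.residue A) y := by
  ext n
  exact (IsLocalRing.ResidueField.residue_smul _ (⟨σ, h⟩ : A.decompositionSubgroup ℚ) _).trans (hi _)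

theorem residue_actRingHom_of_frobenius {ℓ : ℕ} [Fact ℓ.Prime]
    [CharP (IsLocalRing.ResidueField A) ℓ] (h : σ ∈ A.decompositionSubgroup ℚ)
    (hi : ∀ x : IsLocalRing.ResidueField A, (⟨σ, h⟩ : A.decompositionSubgroup ℚ) • x = x ^ ℓ)
    (y : LaurentSeries A) :
    coeffMap (IsLocalRing.residue A) (coeffMap (actRingHom A h) y) =
      coeffMap (frobenius (IsLocalRing.ResidueField A) ℓ)
        (coeffMap (IsLocalRing.residue A) y) := by
  ext n
  exact (IsLocalRing.ResidueField.residue_smul _ (⟨σ, h⟩ : A.decompositionSubgroup ℚ) _).trans (hi _)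

variable {N : ℕ}

theorem smul_apply_eq_ord (σ : Qbar ≃ₐ[ℚ] Qbar)
    {f : modularFunctionFieldBar N} {D : Divisor Qbar (modularFunctionFieldBar N)}
    (hD : ∀ P, D P = P.ord f) (P : Place Qbar (modularFunctionFieldBar N)) :
    (arithmeticGalois (modularFunctionFieldFull N) σ • D) P =
      P.ord (arithmeticGalois (modularFunctionFieldFull N) σ • f) := by
  set g := arithmeticGalois (modularFunctionFieldFull N) σ with hg
  rw [SemilinearAut.divisor_smul_apply, hD (g⁻¹ • P)]
  have h := SemilinearAut.ord_smul g (g⁻¹ • P) f
  rw [smul_inv_smul] at h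
  exact h.symm

theorem galois_smul_mk (σ : Qbar ≃ₐ[ℚ] Qbar)
    (D : Divisor.degZero (K := Qbar) (F := modularFunctionFieldBar N)) :
    σ • (Pic0.mk D : JZero N) =
      Pic0.mk (SemilinearAut.degZeroSMulHom (arithmeticGalois (modularFunctionFieldFull N) σ) D) :=
  rfl

/-- The Galois action on divisors, as an additive homomorphism. -/
def galDiv (N : ℕ) (σ : Qbar ≃ₐ[ℚ] Qbar) :
    Divisor Qbar (modularFunctionFieldBar N) →+ Divisor Qbar (modularFunctionFieldBar N) :=
  DistribSMul.toAddMonoidHom _ (arithmeticGalois (modularFunctionFieldFull N) σ)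

theorem galDiv_single (σ : Qbar ≃ₐ[ℚ] Qbar) (P : Place Qbar (modularFunctionFieldBar N)) :
    galDiv N σ (Finsupp.single P 1) =
      Finsupp.single (arithmeticGalois (modularFunctionFieldFull N) σ • P) 1 :=
  SemilinearAut.smul_single _ _ _

theorem abs_single_one_apply_le {α : Type*} (a b : α) : |(Finsupp.single a (1 : ℤ)) b| ≤ 1 := by
  classical
  rw [Finsupp.single_apply]
  split_ifs <;> simp

theorem reductionDiv_smul_of_inertia
    (hcurve : HasPrincipalDivisors Qbar (modularFunctionFieldBar N))
    (hdeg : ∀ P : Place Qbar (modularFunctionFieldBar N), P.deg = 1)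
    (hR : WeakRiemann Qbar (modularFunctionFieldBar N))
    {r : Place Qbar (modularFunctionFieldBar N) →
      Place (IsLocalRing.ResidueField A) (modularFunctionFieldFullC (IsLocalRing.ResidueField A) N)}
    (hr : IsPlaceReductionModL A N r)
    (hgen : PrincipalGeneratedByIntegral A (IsLocalRing.residue A) N)
    (hs : σ ∈ A.decompositionSubgroup ℚ)
    (hact : ∀ z : IsLocalRing.ResidueField A, (⟨σ, hs⟩ : A.decompositionSubgroup ℚ) • z = z)
    {D : Divisor Qbar (modularFunctionFieldBar N)} (hD : Divisor.degree D = 0) :
    reductionDivAlong r (galDiv N σ D) = reductionDivAlong r D := by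
  refine sub_eq_zero.mp (reduction_eq_zero_of_integral hdeg hR hgen
    ((reductionDivAlong r).comp (galDiv N σ) - reductionDivAlong r) ?_ 2 ?_ hD)
  · intro E hE
    obtain ⟨y, hy, hyk, hne, hEy⟩ := hE
    rw [AddMonoidHom.sub_apply, AddMonoidHom.comp_apply, sub_eq_zero]
    have hy' : coeffMap A.subtype (coeffMap (actRingHom A hs) y) ∈ modularFunctionFieldBar N := by
      rw [coeffMap_subtype_act]; exact coeffMap_mem_laurentBaseChange σ hy
    have hred := residue_actRingHom_of_inertia A hs hact y
    have hE' : ∀ P, galDiv N σ E P = P.ord (⟨_, hy'⟩ : modularFunctionFieldBar N) := fun P =>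
      (smul_apply_eq_ord σ hEy P).trans
        (congrArg P.ord (Subtype.ext (coeffMap_subtype_act A hs y).symm))
    refine Finsupp.ext fun Q => ?_
    rw [reductionDivAlong_apply, reductionDivAlong_apply]
    rw [hr.2 y hy hyk hne E hEy Q,
      hr.2 (coeffMap (actRingHom A hs) y) hy' (hred.symm ▸ hyk) (hred.symm ▸ hne) _ hE' Q]
    exact congrArg Q.ord (Subtype.ext hred)
  · intro P Q
    rw [AddMonoidHom.sub_apply, AddMonoidHom.comp_apply, galDiv_single,
      reductionDivAlong_single, reductionDivAlong_single, Finsupp.sub_apply]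
    refine le_trans (abs_sub _ _) ?_
    have := abs_single_one_apply_le
      (r (arithmeticGalois (modularFunctionFieldFull N) σ • P)) Q
    have := abs_single_one_apply_le (r P) Q
    linarith

/-- Reduction is invariant under inertia. -/
theorem reduction_smul_of_inertia
    (hcurve : HasPrincipalDivisors Qbar (modularFunctionFieldBar N))
    (hdeg : ∀ P : Place Qbar (modularFunctionFieldBar N), P.deg = 1)
    (hR : WeakRiemann Qbar (modularFunctionFieldBar N))
    (hσ : σ ∈ A.inertiaSubgroupIn ℚ) (x : JZero N) :
    reductionModL A N (σ • x) = reductionModL A N x := by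
  by_cases h : ReductionInputsModL A N
  swap
  · rw [reductionModL_of_not h]; rfl
  obtain ⟨D, rfl⟩ := Pic0.mk_surjective x
  obtain ⟨⟨s, hs⟩, hker, rfl⟩ := hσ
  show reductionModL A N (s • Pic0.mk D) = _
  rw [galois_smul_mk, reductionModL_mk h, reductionModL_mk h]
  exact congrArg Pic0.mk (Subtype.ext (reductionDiv_smul_of_inertia A hcurve hdeg hR
    (isPlaceReductionModL_placeReductionModL h) h.choose_spec.2 hs
    (fun z => RingEquiv.congr_fun (MonoidHom.mem_ker.1 hker) z) (Divisor.mem_degZero.mp D.2)))

end Galois

end Fermat.Agent.Congruence
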