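import Fermat.Prelude.Def_ModularCurve_HeckeModule
import Fermat.Agent.Congruence.Reduction
import Fermat.Agent.Congruence.Correspondence
import Fermat.Agent.Congruence.Norm
import Fermat.Agent.Reduction.Instances

/-!
# The Eichler–Shimura congruence relation

The Eichler–Shimura congruence relation on the reduction of `J₀(N)` modulo a prime `ℓ ∤ N`:
`red (φ φ x) - red (T_ℓ (φ x)) + ℓ red x = 0`.
-/

set_option autoImplicit false

noncomputable section

open AlgebraicCurve ModularCurve IntermediateField HahnSeries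
open scoped Fermat.Agent.Reduction

namespace Fermat.Agent.Congruence

local notation "Qbar" => AlgebraicClosure ℚ

variable (A : ValuationSubring Qbar) (N ℓ : ℕ) [NeZero N] [NeZero ℓ] [Fact ℓ.Prime]
  [CharP (IsLocalRing.ResidueField A) ℓ]

/-- The facts on the degeneracy maps used by the congruence relation. -/
structure LevelFacts : Prop where
  hecke : HeckeInputsAlong Qbar N ℓ
  swap : SwapEmbedding Qbar N ℓ
  degree : finrankAlong Qbar (heckeAlphaBar Qbar N ℓ) = ℓ + 1

/-- The combination of reductions which the congruence relation says is zero. -/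
def relationHom (r : Place Qbar (modularFunctionFieldBar N) →
      Place (IsLocalRing.ResidueField A) (modularFunctionFieldFullC (IsLocalRing.ResidueField A) N))
    (σ : Qbar ≃ₐ[ℚ] Qbar)
    (T : Divisor Qbar (modularFunctionFieldBar N) →+ Divisor Qbar (modularFunctionFieldBar N)) :
    Divisor Qbar (modularFunctionFieldBar N) →+
      Divisor (IsLocalRing.ResidueField A)
        (modularFunctionFieldFullC (IsLocalRing.ResidueField A) N) :=
  (reductionDivAlong r).comp ((galDiv N σ).comp (galDiv N σ))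
    - (reductionDivAlong r).comp (T.comp (galDiv N σ)) + ℓ • reductionDivAlong r

variable {A N ℓ}

/-- The congruence relation on integral principal divisors. -/
theorem relationHom_integral
    (hlev : LevelFacts N ℓ)
    {r : Place Qbar (modularFunctionFieldBar N) →
      Place (IsLocalRing.ResidueField A) (modularFunctionFieldFullC (IsLocalRing.ResidueField A) N)}
    (hr : IsPlaceReductionModL A N r)
    {σ : Qbar ≃ₐ[ℚ] Qbar} (hs : σ ∈ A.decompositionSubgroup ℚ)
    (hact : ∀ z : IsLocalRing.ResidueField A, (⟨σ, hs⟩ : A.decompositionSubgroup ℚ) • z = z ^ ℓ)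
    [HasPrincipalDivisors Qbar (laurentBaseChange Qbar (modularFunctionFieldFull (N * ℓ)))]
    (hα : HeckeAlphaBarIntegral Qbar N ℓ) (hβ : HeckeBetaBarIntegral Qbar N ℓ)
    (hfin : FiniteAlong Qbar (heckeAlphaBar Qbar N ℓ))
    (hN : NormFormulaAlong Qbar (heckeAlphaBar Qbar N ℓ) hfin)
    {E : Divisor Qbar (modularFunctionFieldBar N)}
    (hE : E ∈ integralPrincipalDivisors A (IsLocalRing.residue A) N) :
    relationHom A N ℓ r σ (heckeDivBar hα hβ) E = 0 := by
  obtain ⟨y, hy, hyk, hne, hEy⟩ := hE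
  set y₁ := coeffMap (actRingHom A hs) y with hy₁def
  set y₂ := coeffMap (actRingHom A hs) y₁ with hy₂def
  have hy₁ : coeffMap A.subtype y₁ ∈ modularFunctionFieldBar N := by
    rw [hy₁def, coeffMap_subtype_act]; exact coeffMap_mem_laurentBaseChange σ hy
  have hy₂ : coeffMap A.subtype y₂ ∈ modularFunctionFieldBar N := by
    rw [hy₂def, coeffMap_subtype_act]; exact coeffMap_mem_laurentBaseChange σ hy₁
  have hE₁ : ∀ P, galDiv N σ E P = P.ord (⟨_, hy₁⟩ : modularFunctionFieldBar N) := fun P =>
    (smul_apply_eq_ord σ hEy P).trans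
      (congrArg P.ord (Subtype.ext (coeffMap_subtype_act A hs y).symm))
  have hE₂ : ∀ P, galDiv N σ (galDiv N σ E) P =
      P.ord (⟨_, hy₂⟩ : modularFunctionFieldBar N) := fun P =>
    (smul_apply_eq_ord σ hE₁ P).trans
      (congrArg P.ord (Subtype.ext (coeffMap_subtype_act A hs y₁).symm))
  set u := coeffMap (IsLocalRing.residue A) y with hu
  have hu₁ : coeffMap (IsLocalRing.residue A) y₁ =
      coeffMap (frobenius (IsLocalRing.ResidueField A) ℓ) u :=
    residue_actRingHom_of_frobenius A hs hact y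
  have hu₂ : coeffMap (IsLocalRing.residue A) y₂ =
      coeffMap (frobenius (IsLocalRing.ResidueField A) ℓ)
        (coeffMap (frobenius (IsLocalRing.ResidueField A) ℓ) u) := by
    rw [hy₂def, residue_actRingHom_of_frobenius A hs hact y₁, hu₁]
  obtain ⟨z, hz, hzred⟩ := exists_normAlpha_reduction A (IsLocalRing.residue A) N ℓ hlev.swap hfin
    hlev.degree y₁ hy₁
  have hne₂ : coeffMap (IsLocalRing.residue A) y₂ ≠ 0 := by
    rw [hu₂]
    exact (map_ne_zero_iff _ (coeffMap_injective (frobenius_inj _ ℓ))).mpr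
      ((map_ne_zero_iff _ (coeffMap_injective (frobenius_inj _ ℓ))).mpr hne)
  have hk₂ : coeffMap (IsLocalRing.residue A) y₂ ∈
      modularFunctionFieldFullC (IsLocalRing.ResidueField A) N := by
    rw [hu₂]; exact coeffMap_mem_fullC _ (coeffMap_mem_fullC _ hyk)
  have hzeq : coeffMap (IsLocalRing.residue A) z =
      u ^ ℓ * coeffMap (IsLocalRing.residue A) y₂ := by
    rw [hzred, hu₁, hu₂, laurent_pow_char ℓ u]
  have hzne : coeffMap (IsLocalRing.residue A) z ≠ 0 := by
    rw [hzeq]; exact mul_ne_zero (pow_ne_zero _ hne) hne₂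
  have hzk : coeffMap (IsLocalRing.residue A) z ∈
      modularFunctionFieldFullC (IsLocalRing.ResidueField A) N := by
    rw [hzeq]; exact mul_mem (pow_mem hyk _) hk₂
  have hzF : coeffMap A.subtype z ∈ modularFunctionFieldBar N := by
    rw [hz]; exact SetLike.coe_mem _
  have hy₁ne : (⟨_, hy₁⟩ : modularFunctionFieldBar N) ≠ 0 := fun h0 => by
    have h1 : coeffMap A.subtype y₁ = 0 := congrArg Subtype.val h0
    have h2 : y₁ = 0 := coeffMap_injective Subtype.coe_injective (by rw [h1, map_zero])
    exact hne₂ (by rw [hy₂def, h2, map_zero, map_zero])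
  have hT : ∀ P, heckeDivBar hα hβ (galDiv N σ E) P =
      P.ord (⟨_, hzF⟩ : modularFunctionFieldBar N) := fun P => by
    refine (correspondence_eq_ord (heckeBetaBar Qbar N ℓ) (heckeAlphaBar Qbar N ℓ) hβ hα hfin hN
      hy₁ne hE₁ P).trans (congrArg P.ord (Subtype.ext ?_))
    exact hz.symm
  refine Finsupp.ext fun Q => ?_
  simp only [relationHom, AddMonoidHom.add_apply, AddMonoidHom.sub_apply, AddMonoidHom.comp_apply,
    AddMonoidHom.smul_apply, reductionDivAlong_apply, Finsupp.add_apply, Finsupp.sub_apply,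
    Finsupp.smul_apply, Finsupp.zero_apply]
  rw [hr.2 y₂ hy₂ hk₂ hne₂ _ hE₂ Q, hr.2 z hzF hzk hzne _ hT Q, hr.2 y hy hyk hne E hEy Q]
  set v : modularFunctionFieldFullC (IsLocalRing.ResidueField A) N := ⟨_, hyk⟩ with hv
  set w : modularFunctionFieldFullC (IsLocalRing.ResidueField A) N := ⟨_, hk₂⟩ with hw
  have hzw : (⟨_, hzk⟩ : modularFunctionFieldFullC (IsLocalRing.ResidueField A) N) = v ^ ℓ * w :=
    Subtype.ext hzeq
  have hvne : v ≠ 0 := fun h0 => hne (congrArg Subtype.val h0)
  have hwne : w ≠ 0 := fun h0 => hne₂ (congrArg Subtype.val h0)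
  rw [hzw, Q.ord_mul (pow_ne_zero _ hvne) hwne, ← zpow_natCast, Q.ord_zpow, nsmul_eq_mul]
  ring

/-- The congruence relation on divisors of degree zero. -/
theorem relationHom_eq_zero
    (hlev : LevelFacts N ℓ)
    [HasPrincipalDivisors Qbar (modularFunctionFieldBar N)]
    (hdeg : ∀ P : Place Qbar (modularFunctionFieldBar N), P.deg = 1)
    (hR : WeakRiemann Qbar (modularFunctionFieldBar N))
    {r : Place Qbar (modularFunctionFieldBar N) →
      Place (IsLocalRing.ResidueField A) (modularFunctionFieldFullC (IsLocalRing.ResidueField A) N)}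
    (hr : IsPlaceReductionModL A N r)
    (hgen : PrincipalGeneratedByIntegral A (IsLocalRing.residue A) N)
    {σ : Qbar ≃ₐ[ℚ] Qbar} (hs : σ ∈ A.decompositionSubgroup ℚ)
    (hact : ∀ z : IsLocalRing.ResidueField A, (⟨σ, hs⟩ : A.decompositionSubgroup ℚ) • z = z ^ ℓ)
    [HasPrincipalDivisors Qbar (laurentBaseChange Qbar (modularFunctionFieldFull (N * ℓ)))]
    (hα : HeckeAlphaBarIntegral Qbar N ℓ) (hβ : HeckeBetaBarIntegral Qbar N ℓ)
    (hFI : FundamentalIdentityAlong Qbar (heckeBetaBar Qbar N ℓ) hβ)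
    (hfin : FiniteAlong Qbar (heckeAlphaBar Qbar N ℓ))
    (hN : NormFormulaAlong Qbar (heckeAlphaBar Qbar N ℓ) hfin)
    {D : Divisor Qbar (modularFunctionFieldBar N)} (hD : Divisor.degree D = 0) :
    relationHom A N ℓ r σ (heckeDivBar hα hβ) D = 0 := by
  refine reduction_eq_zero_of_integral hdeg hR hgen _
    (fun E hE => relationHom_integral hlev hr hs hact hα hβ hfin hN hE)
    (1 + finrankAlong Qbar (heckeBetaBar Qbar N ℓ) + ℓ) ?_ hD
  intro P Q
  simp only [relationHom, AddMonoidHom.add_apply, AddMonoidHom.sub_apply, AddMonoidHom.comp_apply,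
    AddMonoidHom.smul_apply, galDiv_single, reductionDivAlong_single, Finsupp.add_apply,
    Finsupp.sub_apply, Finsupp.smul_apply]
  set P' := arithmeticGalois (modularFunctionFieldFull N) σ • P with hP'
  have hpos : ∀ v, 0 ≤ heckeDivBar hα hβ (Finsupp.single P' 1) v := fun v =>
    correspondence_nonneg _ _ hβ hα (fun v => by
      classical
      rw [Finsupp.single_apply]; split_ifs <;> simp) v
  have hb := abs_mapDomain_apply_le r _ hpos hdeg Q
  rw [show Divisor.degree (heckeDivBar hα hβ (Finsupp.single P' 1)) =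
      finrankAlong Qbar (heckeBetaBar Qbar N ℓ) by
    rw [heckeDivBar, Divisor.degree_correspondence _ _ hβ hα hFI, Divisor.degree_single, hdeg]
    simp] at hb
  refine le_trans (abs_add_le _ _) (add_le_add (le_trans (abs_sub _ _) (add_le_add ?_ hb)) ?_)
  · exact abs_single_one_apply_le _ _
  · rw [nsmul_eq_mul, abs_mul, Nat.abs_cast]
    exact mul_le_of_le_one_right (Int.natCast_nonneg ℓ) (abs_single_one_apply_le _ _)

/-- The Eichler–Shimura congruence relation on `J₀(N)` modulo `ℓ ∤ N`. -/
theorem congruence_relation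
    (hlev : LevelFacts N ℓ)
    (hP : HasPrincipalDivisors Qbar (modularFunctionFieldBar N))
    (hdeg : ∀ P : Place Qbar (modularFunctionFieldBar N), P.deg = 1)
    (hR : WeakRiemann Qbar (modularFunctionFieldBar N))
    {σ : Qbar ≃ₐ[ℚ] Qbar} (hσ : A.IsFrobeniusAt σ ℓ) (x : JZero N) :
    reductionModL A N (σ • σ • x - heckeOperatorAlong Qbar N ℓ (σ • x) + ℓ • x) = 0 := by
  by_cases h : ReductionInputsModL A N
  swap
  · rw [reductionModL_of_not h]; rfl
  obtain ⟨hα, hβ, hP', hfin, hFI, hN⟩ := hlev.hecke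
  have := hP'
  have := hP
  obtain ⟨hs, hact⟩ := hσ
  obtain ⟨D, rfl⟩ := Pic0.mk_surjective x
  rw [heckeOperatorAlong_eq hα hβ hFI hfin hN, galois_smul_mk, galois_smul_mk]
  have hTmk : ∀ E : Divisor.degZero (K := Qbar) (F := modularFunctionFieldBar N),
      heckePic0Bar hα hβ hFI hfin hN (Pic0.mk E) =
        Pic0.mk (Pic0.degZeroCorrespondence (heckeBetaBar Qbar N ℓ) (heckeAlphaBar Qbar N ℓ)
          hβ hα hFI E) := fun E => rfl
  rw [hTmk, map_add, map_sub, map_nsmul, reductionModL_mk h, reductionModL_mk h,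
    reductionModL_mk h]
  have hz := relationHom_eq_zero hlev hdeg hR (isPlaceReductionModL_placeReductionModL h)
    h.choose_spec.2 hs hact hα hβ hFI hfin hN (Divisor.mem_degZero.mp D.2)
  set r := placeReductionModL h
  set hd := (isPlaceReductionModL_placeReductionModL h).1
  let m : Divisor.degZero (K := IsLocalRing.ResidueField A)
      (F := modularFunctionFieldFullC (IsLocalRing.ResidueField A) N) →+
      JZeroC (IsLocalRing.ResidueField A) N := QuotientAddGroup.mk' _
  show m _ - m _ + ℓ • m _ = 0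
  rw [← map_sub, ← map_nsmul, ← map_add]
  refine (congrArg m (Subtype.ext ?_)).trans (map_zero m)
  simp only [AddSubgroup.coe_add, AddSubgroup.coe_sub, AddSubgroup.coe_nsmul,
    coe_reductionDegZeroAlong, SemilinearAut.coe_degZeroSMulHom, Pic0.coe_degZeroCorrespondence,
    ZeroMemClass.coe_zero]
  exact hz

end Fermat.Agent.Congruence
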