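import Fermat.Prelude.Def_ModularCurve_HeckeModule
import Fermat.Agent.Congruence.Relation
import Fermat.Agent.Frobenius.Exists

/-!
# Specialisation from the congruence relation

`SpecializationExists` for `J₀(N)` from the congruence relation.
-/

set_option autoImplicit false

noncomputable section

open AlgebraicCurve ModularCurve IntermediateField

namespace Fermat.Agent.Congruence

local notation "Qbar" => AlgebraicClosure ℚ

/-- The facts used at a prime `ℓ ∤ N`. -/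
structure GoodPrimeFacts (N ℓ : ℕ) [NeZero N] [NeZero ℓ] : Prop where
  hasPrincipal : HasPrincipalDivisors Qbar (modularFunctionFieldBar N)
  deg_one : ∀ P : Place Qbar (modularFunctionFieldBar N), P.deg = 1
  riemann : WeakRiemann Qbar (modularFunctionFieldBar N)
  level : LevelFacts N ℓ
  injective : ∀ (A : ValuationSubring Qbar), A.LiesOverPrime ℓ → ∀ (m : ℕ), ¬ ℓ ∣ m →
    ∀ z : JZero N, m • z = 0 → reductionModL A N z = 0 → z = 0

section General

variable {J : Type} [AddCommGroup J] [Module HeckeAlg J]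

/-- Abstract assembly: quotient by the relations killed by a map injective on `p`-power torsion. -/
theorem exists_specialization {J₀ : Type*} [AddCommGroup J₀]
    [DistribMulAction (Qbar ≃ₐ[ℚ] Qbar) J] [SMulCommClass (Qbar ≃ₐ[ℚ] Qbar) HeckeAlg J]
    (p : ℕ) (lp : Nat.Primes) (A : ValuationSubring Qbar) (hA : A.LiesOverPrime (lp : ℕ))
    (red : J →+ J₀)
    (hI : ∀ σ ∈ A.inertiaSubgroupIn ℚ, ∀ x : J, red (σ • x) = red x)
    (hF : ∀ σ : Qbar ≃ₐ[ℚ] Qbar, A.IsFrobeniusAt σ (lp : ℕ) → ∀ x : J,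
      red (σ • σ • x - heckeGen lp • (σ • x) + (lp : ℕ) • x) = 0)
    (hinj : ∀ x : J, (∃ n : ℕ, p ^ n • x = 0) → red x = 0 → x = 0) :
    ∃ (J' : Type) (_ : AddCommGroup J') (_ : Module HeckeAlg J') (sp : J →+ J') (F : J' →+ J'),
      IsSpecialization (K := ℚ) p J J' A (lp : ℕ) sp F ∧ SpecialFibreRelation J' lp lp.2 F := by
  obtain ⟨φ, hφ⟩ := Fermat.Agent.Frobenius.exists_isFrobeniusAt_qbar lp.2 hA
  let act : (Qbar ≃ₐ[ℚ] Qbar) → J →ₗ[HeckeAlg] J := fun g =>
    { toFun := fun x => g • x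
      map_add' := smul_add g
      map_smul' := fun t x => smul_comm g t x }
  let rel : J → J := fun x => φ • φ • x - heckeGen lp • (φ • x) + (lp : ℕ) • x
  let gens : Set J := {z | ∃ σ ∈ A.inertiaSubgroupIn ℚ, ∃ x, z = σ • x - x} ∪ Set.range rel
  let K₀ : Submodule HeckeAlg J := Submodule.span HeckeAlg gens
  let K₁ : Submodule HeckeAlg J :=
    { carrier := {x | ∀ t : HeckeAlg, red (t • x) = 0}
      zero_mem' := fun t => by simp
      add_mem' := fun {a b} ha hb t => by rw [smul_add, map_add, ha t, hb t, add_zero]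
      smul_mem' := fun c x hx t => by rw [← mul_smul]; exact hx _ }
  have hK₁ : K₀ ≤ K₁ := by
    refine Submodule.span_le.mpr ?_
    rintro z (⟨σ, hσ, x, rfl⟩ | ⟨x, rfl⟩) t
    · rw [smul_sub, ← smul_comm σ t x, map_sub, hI σ hσ, sub_self]
    · have : t • rel x = rel (t • x) := by
        simp only [rel, smul_add, smul_sub]
        rw [smul_comm φ t x, smul_comm φ t (φ • x), smul_comm (heckeGen lp) t (φ • x),
          smul_comm t (lp : ℕ) x]
      rw [this]; exact hF φ hφ (t • x)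
  have hconj : ∀ σ ∈ A.inertiaSubgroupIn ℚ, φ * σ * φ⁻¹ ∈ A.inertiaSubgroupIn ℚ := by
    intro σ hσ
    obtain ⟨hs, hx⟩ := Fermat.Agent.Frobenius.mem_inertiaSubgroupIn_iff.mp hσ
    have hd := hφ.mem_decompositionSubgroup
    refine Fermat.Agent.Frobenius.mem_inertiaSubgroupIn_iff.mpr
      ⟨mul_mem (mul_mem hd hs) (inv_mem hd), fun z => ?_⟩
    show ((⟨φ, hd⟩ : A.decompositionSubgroup ℚ) * ⟨σ, hs⟩ * ⟨φ, hd⟩⁻¹) • z = z
    rw [mul_smul, mul_smul, hx, smul_inv_smul]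
  have hstable : K₀ ≤ K₀.comap (act φ) := by
    refine Submodule.span_le.mpr ?_
    rintro z (⟨σ, hσ, x, rfl⟩ | ⟨x, rfl⟩)
    · refine Submodule.subset_span (Or.inl ⟨_, hconj σ hσ, φ • x, ?_⟩)
      show φ • (σ • x - x) = _
      rw [smul_sub, mul_smul, mul_smul, inv_smul_smul]
    · refine Submodule.subset_span (Or.inr ⟨φ • x, ?_⟩)
      show rel (φ • x) = φ • rel x
      simp only [rel, smul_add, smul_sub]
      rw [smul_comm φ (heckeGen _) (φ • x), smul_comm φ (lp : ℕ) x]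
  let sp : J →+ J ⧸ K₀ := K₀.mkQ.toAddMonoidHom
  let F : J ⧸ K₀ →+ J ⧸ K₀ := (K₀.mapQ K₀ (act φ) hstable).toAddMonoidHom
  have hFsp : ∀ x, F (sp x) = sp (φ • x) := fun x => rfl
  have hsp : ∀ σ ∈ A.inertiaSubgroupIn ℚ, ∀ x : J, sp (σ • x) = sp x := fun σ hσ x =>
    (Submodule.Quotient.eq K₀).mpr (Submodule.subset_span (Or.inl ⟨σ, hσ, x, rfl⟩))
  refine ⟨J ⧸ K₀, inferInstance, inferInstance, sp, F, ⟨fun t x => rfl, hsp, ?_, ?_⟩, ?_⟩
  · intro σ hσ x
    rw [hFsp]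
    have h := Fermat.Agent.Frobenius.isFrobeniusAt_inv_mul_mem_inertia hφ hσ
    have h1 := hsp _ (hconj _ h) (φ • x)
    rw [show (φ * (φ⁻¹ * σ) * φ⁻¹) • (φ • x) = σ • x by
      rw [← mul_smul]; congr 1; group] at h1
    exact h1
  · intro x hx h0
    refine hinj x hx ?_
    simpa using hK₁ ((Submodule.Quotient.mk_eq_zero K₀).mp h0) 1
  · intro y
    obtain ⟨x, rfl⟩ := K₀.mkQ_surjective y
    show F (F (sp x)) - heckeGen lp • F (sp x) + (lp : ℕ) • sp x = 0
    rw [hFsp, hFsp]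
    show sp (φ • φ • x) - sp (heckeGen lp • φ • x) + (lp : ℕ) • sp x = 0
    rw [← map_sub, ← map_nsmul, ← map_add]
    exact (Submodule.Quotient.mk_eq_zero K₀).mpr (Submodule.subset_span (Or.inr ⟨x, rfl⟩))

end General

/-- `SpecializationExists` from the facts at every good prime. -/
theorem specializationExists_of_facts (N p : ℕ) [NeZero N]
    (hcomm : HeckeOperatorsCommuteBar N)
    (hfacts : ∀ (ℓ : ℕ) [NeZero ℓ], ℓ.Prime → ¬ ℓ ∣ N → GoodPrimeFacts N ℓ) :
    letI := heckeModuleBar N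
    ∀ (_ : SMulCommClass (Qbar ≃ₐ[ℚ] Qbar) HeckeAlg (JZero N)),
      SpecializationExists (K := ℚ) (L := Qbar) N p (JZero N) := by
  let := heckeModuleBar N
  intro _ ℓ hℓ hndvd A hA
  have : NeZero ℓ := ⟨hℓ.ne_zero⟩
  have : Fact ℓ.Prime := ⟨hℓ⟩
  have : CharP (IsLocalRing.ResidueField A) ℓ := Fermat.Agent.Frobenius.residueField_charP hℓ hA
  have hN : ¬ ℓ ∣ N := fun h => hndvd (h.trans (dvd_mul_right N p))
  have hp : ∀ n : ℕ, ¬ ℓ ∣ p ^ n := fun n h =>
    hndvd ((hℓ.dvd_of_dvd_pow h).trans (dvd_mul_left p N))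
  obtain ⟨hP, hdeg, hR, hlev, hinj⟩ := hfacts ℓ hℓ hN
  refine exists_specialization p ⟨ℓ, hℓ⟩ A hA (reductionModL A N)
    (fun σ hσ x => reduction_smul_of_inertia A hP hdeg hR hσ x) (fun σ hσ x => ?_)
    (fun x ⟨n, hn⟩ h0 => hinj A hA _ (hp n) x hn h0)
  erw [heckeModuleBar_heckeGen_smul hcomm ⟨ℓ, hℓ⟩ (σ • x), heckeOperatorBar_apply]
  exact congruence_relation hlev hP hdeg hR hσ x

end Fermat.Agent.Congruence
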